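import Mathlib
import Fermat.Agent.MU.S17.H.Curve
import Fermat.Agent.MU.S17.H.ImmCurve
import Fermat.Agent.MU.S17.H.ImmSec
import Fermat.Agent.MU.S17.H.GaussMore
import Fermat.Agent.MU.Lib.RR.MultGeneral

section MergeWrap_S17_H_L7_PolyRep -- from S17/H/L7/PolyRep.lean

set_option autoImplicit false

/-!
# S17, package H, seat L7, piece D2: sections as homogeneous polynomials in the embedding basis

Owner: helper63.  Sorry-free.

`V_k = secSpace P₀ e k = L(k e P₀)`.  For `e ≥ 3 g` every section of `V_k` is a homogeneous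
polynomial of degree `k` in `φ` (`Fermat.Agent.RRMult.mulSpan_eq`, induction on `k`), and the value
of a section at a place is the value of the polynomial at the coordinates of the place.
-/

noncomputable section

open AlgebraicCurve MvPolynomial

namespace Fermat.Agent.S17.L7

open Fermat.Agent.RR

variable {F : Type*} [Field F] [Algebra Qbar F]
variable {P₀ : Place Qbar F} {e r : ℕ} {φ : Fin (r + 1) → F}

/-- the order at `P` of a section of `V_k` (order of `s / φ_pivot^k`) is the multiplicity of `P`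
in the zero divisor of the section. -/
theorem ord_div_pivot_pow (h : IsRRField Qbar F) (hφ : IsEmbBasis P₀ e φ)
    (he : 2 * genusFF Qbar F ≤ e) (k : ℕ) {s : F} (hs0 : s ≠ 0) (P : Place Qbar F) :
    P.ord (s / φ (pivot φ P) ^ k) = zdiv h P₀ e k s P := by
  have hp0 : φ (pivot φ P) ≠ 0 := hφ.ne_zero _
  rw [imm_ord_div P hs0 (pow_ne_zero _ hp0), imm_ord_pow, hφ.ord_pivot h he P, zdiv_apply,
    imm_single_mul]
  ring

/-- the zero divisor of a nonzero section is effective -/
theorem zdiv_nonneg (h : IsRRField Qbar F) (k : ℕ) {s : F} (hs : s ∈ secSpace P₀ e k)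
    (hs0 : s ≠ 0) (P : Place Qbar F) : 0 ≤ zdiv h P₀ e k s P :=
  Fermat.Agent.S17.zdiv_nonneg h P₀ e k hs hs0 P

/-- the zero divisor of a section of `V_k` has degree `k e` -/
theorem degree_zdiv (h : IsRRField Qbar F) (k : ℕ) (s : F) :
    Divisor.degree (zdiv h P₀ e k s) = ((k * e : ℕ) : ℤ) := by
  unfold zdiv
  rw [map_add, degree_divOf, degree_single_one h, zero_add]

/-- (PR1) every section of `V_k` is a homogeneous polynomial of degree `k` in `φ`. -/
theorem exists_polyRep (h : IsRRField Qbar F) (hφ : IsEmbBasis P₀ e φ)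
    (he : 3 * genusFF Qbar F ≤ e) (k : ℕ) {s : F} (hs : s ∈ secSpace P₀ e k) :
    ∃ S : MvPolynomial (Fin (r + 1)) Qbar, S.IsHomogeneous k ∧ aeval φ S = s :=
  gauss_mem_homImage.mp (gauss_secSpace_le_homImage h he hφ k hs)

/-- `1` is a section of `V_0` -/
theorem one_mem_secSpace_zero : (1 : F) ∈ secSpace P₀ e 0 := by
  unfold secSpace
  simp only [zero_mul, Nat.cast_zero, Finsupp.single_zero]
  have := algebraMap_mem_riemannRochSpace_zero (K := Qbar) (F := F) 1
  rwa [map_one] at this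

/-- powers of sections -/
theorem pow_mem_secSpace {s : F} (hs : s ∈ secSpace P₀ e 1) (n : ℕ) :
    s ^ n ∈ secSpace P₀ e n := by
  induction n with
  | zero =>
    rw [pow_zero]
    exact one_mem_secSpace_zero
  | succ n ih =>
    rw [pow_succ]
    exact gauss_secSpace_mul_mem P₀ e n 1 ih hs

/-- monomials in `φ` are sections -/
theorem prod_pow_mem_secSpace (hφ : IsEmbBasis P₀ e φ) (m : Fin (r + 1) →₀ ℕ)
    (t : Finset (Fin (r + 1))) :
    ∏ a ∈ t, φ a ^ m a ∈ secSpace P₀ e (∑ a ∈ t, m a) := by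
  classical
  induction t using Finset.induction_on with
  | empty =>
    rw [Finset.prod_empty, Finset.sum_empty]
    exact one_mem_secSpace_zero
  | insert a t ha ih =>
    rw [Finset.prod_insert ha, Finset.sum_insert ha]
    refine gauss_secSpace_mul_mem P₀ e _ _ (pow_mem_secSpace ?_ _) ih
    rw [← hφ.span_eq]
    exact Submodule.subset_span ⟨a, rfl⟩

/-- a homogeneous polynomial of degree `k` in `φ` is a section of `V_k`. -/
theorem aeval_mem_secSpace (hφ : IsEmbBasis P₀ e φ) {k : ℕ}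
    {S : MvPolynomial (Fin (r + 1)) Qbar} (hS : S.IsHomogeneous k) :
    aeval φ S ∈ secSpace P₀ e k := by
  rw [aeval_def, eval₂_eq']
  refine Submodule.sum_mem _ fun m hm => ?_
  have hdeg : ∑ a, m a = k := by
    have h1 := hS.degree_eq_sum_deg_support hm
    have h2 : ∑ s ∈ m.support, m s = ∑ s, m s :=
      Finset.sum_subset (Finset.subset_univ _) fun s _ hs => by simpa using hs
    rw [← h2, ← h1]
  have hmem := prod_pow_mem_secSpace hφ m Finset.univ
  rw [hdeg] at hmem
  rw [← Algebra.smul_def]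
  exact Submodule.smul_mem _ _ hmem

/-- (PR2) the value of a section at `P` is the value of the polynomial at `coord φ P`. -/
theorem val_polyRep (h : IsRRField Qbar F) (hφ : IsEmbBasis P₀ e φ) (P : Place Qbar F) {k : ℕ}
    {S : MvPolynomial (Fin (r + 1)) Qbar} (hS : S.IsHomogeneous k) :
    val P (aeval φ S / φ (pivot φ P) ^ k) = eval (coord φ P) S :=
  gauss_val_aeval_div_pivot h hφ P hS

/-- (PR3) the homogeneous relations of `φ` vanish at the coordinates of every place. -/
theorem eval_coord_eq_zero (h : IsRRField Qbar F) (hφ : IsEmbBasis P₀ e φ) (P : Place Qbar F)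
    {k : ℕ} {S : MvPolynomial (Fin (r + 1)) Qbar} (hS : S.IsHomogeneous k)
    (h0 : aeval φ S = 0) : eval (coord φ P) S = 0 := by
  rw [← val_polyRep h hφ P hS, h0, zero_div]
  exact Pts.ev_zero P

/-- values of sections are multiplicative -/
theorem val_section_mul (h : IsRRField Qbar F) (hφ : IsEmbBasis P₀ e φ)
    (he : 2 * genusFF Qbar F ≤ e) (P : Place Qbar F) {k k' : ℕ} {s s' : F}
    (hs : s ∈ secSpace P₀ e k) (hs' : s' ∈ secSpace P₀ e k') :
    val P (s * s' / φ (pivot φ P) ^ (k + k'))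
      = val P (s / φ (pivot φ P) ^ k) * val P (s' / φ (pivot φ P) ^ k') := by
  rcases eq_or_ne s 0 with rfl | hs0
  · simp [val]
  rcases eq_or_ne s' 0 with rfl | hs'0
  · simp [val]
  have h1 : 0 ≤ P.ord (s / φ (pivot φ P) ^ k) := by
    rw [ord_div_pivot_pow h hφ he k hs0 P]
    exact zdiv_nonneg h k hs hs0 P
  have h2 : 0 ≤ P.ord (s' / φ (pivot φ P) ^ k') := by
    rw [ord_div_pivot_pow h hφ he k' hs'0 P]
    exact zdiv_nonneg h k' hs' hs'0 P
  have heq : s * s' / φ (pivot φ P) ^ (k + k')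
      = (s / φ (pivot φ P) ^ k) * (s' / φ (pivot φ P) ^ k') := by
    rw [pow_add, mul_div_mul_comm]
  unfold val
  rw [heq, Pts.ev_mul h P h1 h2]

/-- a section of `V_k` which vanishes at more than `k e` places is zero. -/
theorem eq_zero_of_val_eq_zero (h : IsRRField Qbar F) (hφ : IsEmbBasis P₀ e φ)
    (he : 2 * genusFF Qbar F ≤ e) (k : ℕ) {s : F} (hs : s ∈ secSpace P₀ e k)
    (T : Finset (Place Qbar F)) (hT : k * e < T.card)
    (hval : ∀ Q ∈ T, val Q (s / φ (pivot φ Q) ^ k) = 0) : s = 0 := by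
  classical
  by_contra hs0
  have hpos : ∀ Q ∈ T, 1 ≤ zdiv h P₀ e k s Q := by
    intro Q hQ
    have hne : s / φ (pivot φ Q) ^ k ≠ 0 :=
      div_ne_zero hs0 (pow_ne_zero _ (hφ.ne_zero _))
    have hord : 0 ≤ Q.ord (s / φ (pivot φ Q) ^ k) := by
      rw [ord_div_pivot_pow h hφ he k hs0 Q]
      exact zdiv_nonneg h k hs hs0 Q
    have := (Pts.ev_eq_zero_iff h Q hne hord).mp (hval Q hQ)
    rw [ord_div_pivot_pow h hφ he k hs0 Q] at this
    omega
  have hsub : T ⊆ (zdiv h P₀ e k s).support := by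
    intro Q hQ
    rw [Finsupp.mem_support_iff]
    have := hpos Q hQ
    omega
  have hdeg := degree_zdiv (P₀ := P₀) (e := e) h k s
  rw [degree_eq_sum h] at hdeg
  have h1 : ∑ Q ∈ T, (1 : ℤ) ≤ ∑ Q ∈ T, zdiv h P₀ e k s Q := Finset.sum_le_sum hpos
  have h2 : ∑ Q ∈ T, zdiv h P₀ e k s Q ≤ ∑ Q ∈ (zdiv h P₀ e k s).support, zdiv h P₀ e k s Q :=
    Finset.sum_le_sum_of_subset_of_nonneg hsub fun Q _ _ => zdiv_nonneg h k hs hs0 Q
  rw [Finset.sum_const, nsmul_eq_mul, mul_one] at h1
  have h3 : (T.card : ℤ) ≤ ((k * e : ℕ) : ℤ) := by linarith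
  have h4 : T.card ≤ k * e := by exact_mod_cast h3
  omega

end Fermat.Agent.S17.L7
end
end MergeWrap_S17_H_L7_PolyRep
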